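import Mathlib
import Fermat.Agent.MUL.Lib.BadRed.TwoExtModular
import Fermat.Agent.MUL.Orig.S27.Lift.ValAdapt
import Fermat.Agent.MUL.Orig.Lib.BadRed.HPVal.Circle

section MergeWrap_Lib_BadRed_HPVal_RootSel -- from Lib/BadRed/HPVal/RootSel.lean

set_option autoImplicit false
set_option linter.unusedSectionVars false
set_option linter.style.haveILetI false

/-!
# Cluster G (S36), block W-P, abstract part: ROOT SELECTION

Extension of a valuation ring to a simple algebraic extension with a PRESCRIBED residue of the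
generator.  Nothing modular.

`E ⊆ F` fields, `O` a valuation ring of `E` with residue map `ρ : O → κ` (kernel = the non-units),
`θ ∈ F`, `g ∈ O[T]` primitive (`ρ g ≠ 0`) dividing a power of the minimal polynomial of `θ` over
`E` (for instance the normalised characteristic polynomial of `θ`), `L` a field over `κ` and
`ξ ∈ L` a root of `ρ g`.

* `rs_exists_primitive` : every nonzero polynomial over `E` is a constant times a polynomial over
  `O` with a coefficient equal to `1`;
* `rs_dvd_of_map_dvd`   : Gauss lemma: `g` primitive and `g ∣ p` over `E` imply `g ∣ p` over `O`;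
* `rs_key`              : `h(θ) = 0` implies `(ρ h)(ξ) = 0`;
* **`exists_valuationSubring_root`** : there is a valuation ring `O'` of `F` over `O` with
  `θ ∈ O'` and, for all `h ∈ O[T]`:  `h(θ) ∈ 𝔪_{O'}  ↔  (ρ h)(ξ) = 0`
  (so `κ(ξ)` embeds into the residue field of `O'`, the residue of `θ` going to `ξ`).

Use (W-P): `θ = t₁ / ϖ^q` over `α² F₀` with the circle valuation, `g` the normalised Kronecker
polynomial, `ρ g = - X T + X^(q+1) + c` (degree one), `ξ = X^q + c / X`;  then `θ = t₂ / ϖ`,
`ρ g` = the equation of `H_P`, `ξ = X₂ ∈ k(H_P)`.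
-/

noncomputable section

open Polynomial

namespace Fermat.Agent.HPVal

open Fermat.Agent.BadRed

variable {E F : Type*} [Field E] [Field F] [Algebra E F]

/-- normalisation: a nonzero polynomial over `E` is a nonzero constant times a polynomial over
the valuation ring `O` which has a coefficient equal to `1`. -/
theorem rs_exists_primitive (O : ValuationSubring E) {r : E[X]} (hr : r ≠ 0) :
    ∃ (d : E) (r₂ : O[X]), d ≠ 0 ∧ r = C d * r₂.map O.subtype ∧ ∃ i, r₂.coeff i = 1 := by
  classical
  have hne : r.support.Nonempty := by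
    rw [Finset.nonempty_iff_ne_empty, Ne, Polynomial.support_eq_empty]
    exact hr
  obtain ⟨i₀, hi₀, hmax⟩ := Finset.exists_max_image r.support
    (fun i => O.valuation (r.coeff i)) hne
  set d := r.coeff i₀ with hd
  have hd0 : d ≠ 0 := Polynomial.mem_support_iff.mp hi₀
  have hcoef : ∀ i, d⁻¹ * r.coeff i ∈ O := by
    intro i
    by_cases hi : i ∈ r.support
    · rw [← ValuationSubring.valuation_le_one_iff, map_mul, map_inv₀]
      have h1 := hmax i hi
      have h2 : O.valuation d ≠ 0 := (Valuation.ne_zero_iff _).mpr hd0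
      rw [inv_mul_le_iff₀ (zero_lt_iff.mpr h2), mul_one]
      exact h1
    · rw [Polynomial.notMem_support_iff.mp hi, mul_zero]
      exact O.zero_mem
  have hsub : (↑(C d⁻¹ * r).coeffs : Set E) ⊆ O.toSubring := by
    intro x hx
    rw [Finset.mem_coe, Polynomial.mem_coeffs_iff] at hx
    obtain ⟨n, -, rfl⟩ := hx
    rw [Polynomial.coeff_C_mul]
    exact hcoef n
  refine ⟨d, (C d⁻¹ * r).toSubring O.toSubring hsub, hd0, ?_, i₀, ?_⟩
  · have h1 : ((C d⁻¹ * r).toSubring O.toSubring hsub).map O.subtype = C d⁻¹ * r :=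
      Polynomial.map_toSubring _ _ hsub
    rw [h1, ← mul_assoc, ← C_mul, mul_inv_cancel₀ hd0, C_1, one_mul]
  · apply Subtype.ext
    have h1 := Polynomial.coeff_toSubring (C d⁻¹ * r) O.toSubring hsub (n := i₀)
    rw [h1, Polynomial.coeff_C_mul, ← hd, inv_mul_cancel₀ hd0]
    rfl

variable (O : ValuationSubring E) {κ : Type*} [Field κ] (ρ : O →+* κ)

/-- **Gauss lemma** over a valuation ring: a primitive polynomial which divides `p` over the
fraction field divides `p` over the valuation ring. -/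
theorem rs_dvd_of_map_dvd (hρ : ∀ f : O, ρ f = 0 ↔ ¬ IsUnit f) {g p : O[X]}
    (hg : g.map ρ ≠ 0) (h : g.map O.subtype ∣ p.map O.subtype) : g ∣ p := by
  have hinj : Function.Injective (Polynomial.map (O.subtype : O →+* E)) :=
    Polynomial.map_injective _ Subtype.coe_injective
  obtain ⟨r, hr⟩ := h
  rcases eq_or_ne r 0 with rfl | hr0
  · rw [mul_zero] at hr
    have : p = 0 := hinj (by rw [hr, Polynomial.map_zero])
    rw [this]
    exact dvd_zero g
  obtain ⟨d, r₂, hd0, hr₂, i, hi⟩ := rs_exists_primitive O hr0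
  have hr₂ρ : r₂.map ρ ≠ 0 := by
    intro h0
    have := congrArg (fun q => q.coeff i) h0
    simp only [Polynomial.coeff_map, hi, map_one, Polynomial.coeff_zero] at this
    exact one_ne_zero this
  by_cases hdO : d ∈ O
  · refine ⟨C (⟨d, hdO⟩ : O) * r₂, hinj ?_⟩
    rw [hr, hr₂, Polynomial.map_mul, Polynomial.map_mul, Polynomial.map_C]
    rfl
  · exfalso
    have hdinv : d⁻¹ ∈ O := (O.mem_or_inv_mem d).resolve_left hdO
    have hnu : ¬ IsUnit (⟨d⁻¹, hdinv⟩ : O) := by
      intro hu
      obtain ⟨u, hu'⟩ := hu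
      apply hdO
      have h1 : ((u⁻¹ : Oˣ) : O) * ⟨d⁻¹, hdinv⟩ = 1 := by
        rw [← hu']
        exact u.inv_mul
      have h2 : (((u⁻¹ : Oˣ) : O) : E) * d⁻¹ = 1 := congrArg Subtype.val h1
      have h3 : (((u⁻¹ : Oˣ) : O) : E) = d := by
        field_simp at h2
        exact h2
      rw [← h3]
      exact SetLike.coe_mem _
    have hzero : ρ ⟨d⁻¹, hdinv⟩ = 0 := (hρ _).mpr hnu
    have heq : g * r₂ = C (⟨d⁻¹, hdinv⟩ : O) * p := by
      apply hinj
      rw [Polynomial.map_mul, Polynomial.map_mul, hr, hr₂, Polynomial.map_C]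
      have : (O.subtype : O →+* E) ⟨d⁻¹, hdinv⟩ = d⁻¹ := rfl
      rw [this]
      have hC : (C d⁻¹ : E[X]) * C d = 1 := by
        rw [← C_mul, inv_mul_cancel₀ hd0, C_1]
      calc Polynomial.map O.subtype g * Polynomial.map O.subtype r₂
          = (C d⁻¹ * C d) * (Polynomial.map O.subtype g * Polynomial.map O.subtype r₂) := by
            rw [hC, one_mul]
        _ = C d⁻¹ * (Polynomial.map O.subtype g * (C d * Polynomial.map O.subtype r₂)) := by
            ring
    have := congrArg (Polynomial.map ρ) heq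
    rw [Polynomial.map_mul, Polynomial.map_mul, Polynomial.map_C, hzero, C_0, zero_mul] at this
    exact (mul_ne_zero hg hr₂ρ) this

/-- **the key lemma**: a polynomial over `O` vanishing at `θ` reduces to a polynomial vanishing at
the chosen root `ξ` of the reduction of `g`. -/
theorem rs_key (hρ : ∀ f : O, ρ f = 0 ↔ ¬ IsUnit f) {θ : F} {g : O[X]} (hg : g.map ρ ≠ 0)
    (hdvd : ∃ m : ℕ, g.map O.subtype ∣ (minpoly E θ) ^ m)
    {L : Type*} [Field L] (ι : κ →+* L) {ξ : L} (hξ : eval₂ (ι.comp ρ) ξ g = 0)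
    {h : O[X]} (hh : eval₂ ((algebraMap E F).comp O.subtype) θ h = 0) :
    eval₂ (ι.comp ρ) ξ h = 0 := by
  obtain ⟨m, hm⟩ := hdvd
  have h1 : Polynomial.aeval θ (h.map O.subtype) = 0 := by
    rw [Polynomial.aeval_def, Polynomial.eval₂_map]
    exact hh
  have h2 : minpoly E θ ∣ h.map O.subtype := minpoly.dvd E θ h1
  have h3 : g.map O.subtype ∣ (h ^ m).map O.subtype := by
    rw [Polynomial.map_pow]
    exact hm.trans (pow_dvd_pow_of_dvd h2 m)
  obtain ⟨r, hr⟩ := rs_dvd_of_map_dvd O ρ hρ hg h3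
  have h4 : eval₂ (ι.comp ρ) ξ (h ^ m) = 0 := by
    rw [hr, eval₂_mul, hξ, zero_mul]
  rw [eval₂_pow] at h4
  have hm0 : m ≠ 0 := by
    rintro rfl
    rw [pow_zero] at h4
    exact one_ne_zero h4
  exact (pow_eq_zero_iff hm0).mp h4

/-- **ROOT SELECTION.**  There is a valuation ring `O'` of `F` over `O` containing `θ` in which
`h(θ)` is a non-unit exactly when the reduction of `h` vanishes at `ξ`. -/
theorem exists_valuationSubring_root (hρ : ∀ f : O, ρ f = 0 ↔ ¬ IsUnit f) (θ : F) {g : O[X]}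
    (hg : g.map ρ ≠ 0) (hdvd : ∃ m : ℕ, g.map O.subtype ∣ (minpoly E θ) ^ m)
    {L : Type*} [Field L] (ι : κ →+* L) (ξ : L) (hξ : eval₂ (ι.comp ρ) ξ g = 0) :
    ∃ O' : ValuationSubring F, LiesOverV O O' ∧ θ ∈ O' ∧
      ∀ h : O[X], (eval₂ ((algebraMap E F).comp O.subtype) θ h ∈ O'.nonunits ↔
        eval₂ (ι.comp ρ) ξ h = 0) := by
  classical
  set φ : O →+* F := (algebraMap E F).comp O.subtype with hφ
  set evθ : O[X] →+* F := Polynomial.eval₂RingHom φ θ with hevθ
  set evξ : O[X] →+* L := Polynomial.eval₂RingHom (ι.comp ρ) ξ with hevξ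
  set S : Subring F := evθ.range with hS
  have hsurj : Function.Surjective evθ.rangeRestrict := evθ.rangeRestrict_surjective
  have hker : RingHom.ker evθ.rangeRestrict ≤ RingHom.ker evξ := by
    intro h hh
    rw [RingHom.mem_ker] at hh ⊢
    have h1 : evθ h = 0 := congrArg Subtype.val hh
    exact rs_key O ρ hρ hg hdvd ι hξ h1
  set ψ : S →+* L := evθ.rangeRestrict.liftOfSurjective hsurj ⟨evξ, hker⟩ with hψ
  have hψ_apply : ∀ h : O[X], ψ (evθ.rangeRestrict h) = evξ h := fun h =>
    RingHom.liftOfSurjective_comp_apply _ hsurj ⟨evξ, hker⟩ h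
  haveI : (RingHom.ker ψ).IsPrime := RingHom.ker_isPrime ψ
  obtain ⟨V, hSV, hP, hnP⟩ := Fermat.Agent.S27.exists_valuationSubring_of_prime S (RingHom.ker ψ)
  have hmemS : ∀ h : O[X], evθ h ∈ S := fun h => ⟨h, rfl⟩
  have hiff : ∀ h : O[X], (evθ h ∈ V.nonunits ↔ evξ h = 0) := by
    intro h
    constructor
    · intro hnu
      by_contra hne
      have h1 : evθ.rangeRestrict h ∉ RingHom.ker ψ := by
        rw [RingHom.mem_ker, hψ_apply]
        exact hne
      obtain ⟨h0, hinv⟩ := hnP _ h1
      have h2 : evθ h ∈ V := hSV (hmemS h)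
      have h3 : V.valuation (evθ h) < 1 := (V.mem_nonunits_iff).mp hnu
      have h4 : V.valuation (evθ h)⁻¹ ≤ 1 := (V.valuation_le_one_iff _).mpr hinv
      rw [map_inv₀] at h4
      have h5 : V.valuation (evθ h) ≠ 0 := (Valuation.ne_zero_iff _).mpr h0
      have h6 : (1 : V.ValueGroup) ≤ V.valuation (evθ h) := by
        have := (inv_le_one₀ (zero_lt_iff.mpr h5)).mp h4
        exact this
      exact absurd h3 (not_lt.mpr h6)
    · intro h0
      have h1 : evθ.rangeRestrict h ∈ RingHom.ker ψ := by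
        rw [RingHom.mem_ker, hψ_apply]
        exact h0
      exact hP _ h1
  refine ⟨V, ?_, ?_, ?_⟩
  · apply liesOverV_of_le
    · intro x hx
      have : algebraMap E F x = evθ (C ⟨x, hx⟩) := by
        rw [hevθ, Polynomial.coe_eval₂RingHom, eval₂_C]
        rfl
      rw [this]
      exact hSV (hmemS _)
    · intro x hx
      have hxO : x ∈ O := by
        have := (O.mem_nonunits_iff).mp hx
        exact (O.valuation_le_one_iff x).mp (le_of_lt this)
      have hnu : ¬ IsUnit (⟨x, hxO⟩ : O) := by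
        intro hu
        have h1 : O.valuation x = 1 := (O.valuation_eq_one_iff ⟨x, hxO⟩).mp hu
        have h2 := (O.mem_nonunits_iff).mp hx
        rw [h1] at h2
        exact lt_irrefl _ h2
      have h0 : evξ (C ⟨x, hxO⟩) = 0 := by
        rw [hevξ, Polynomial.coe_eval₂RingHom, eval₂_C, RingHom.comp_apply, (hρ _).mpr hnu,
          map_zero]
      have := (hiff (C ⟨x, hxO⟩)).mpr h0
      have e : algebraMap E F x = evθ (C ⟨x, hxO⟩) := by
        rw [hevθ, Polynomial.coe_eval₂RingHom, eval₂_C]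
        rfl
      rw [e]
      exact this
  · have : θ = evθ X := by
      rw [hevθ, Polynomial.coe_eval₂RingHom, eval₂_X]
    rw [this]
    exact hSV (hmemS _)
  · intro h
    exact hiff h

end Fermat.Agent.HPVal
end
end MergeWrap_Lib_BadRed_HPVal_RootSel

section MergeWrap_Lib_BadRed_HPVal_DiscNorm -- from Lib/BadRed/HPVal/DiscNorm.lean

set_option autoImplicit false
set_option linter.unusedSectionVars false
set_option linter.style.haveILetI false

/-!
# Cluster G (S36), block W-P, seat DISC-NORM (helper47): the disc valuation is EXACT and UNIQUE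

Abstract, on top of `CircleData` (`Lib/BadRed/HPVal/Circle.lean`, helper51).  Nothing modular.

`F / K` fields, `A` a valuation ring of `K` with residue map `res : A → k`, `B ⊆ O` subrings of `F`
(`B` = integral functions without pole on the residue disc of `P`), `t ∈ B`, `π ∈ A`, `ϖ` the
image of `π` in `F`, `ev : B → k` (evaluation of the reduction at `P`), `W = t / ϖ`.  Hypotheses
(`DiscData`): the circle hypotheses, `A ⊆ B` with `ev = res` on `A`, and

* `taylor` : `∀ g ∈ B, ∃ a ∈ A, (g - a) / t ∈ B`                (division lemma (D));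
* `sep`    : `g ∈ B` with `g / t^N ∈ B` for all `N` is `0`       (finite order at the centre);
* `arch`   : `∀ c ≠ 0, ∃ N, |π^N| < |c|`                         (`A` has rank one);
* `frac`   : every `f ∈ F` is a quotient of elements of `B`.

Results:

* `DiscData.taylorN`     : finite Taylor expansion `g = Q(t) + t^M g'`, `Q ∈ A[X]`, `g' ∈ B`;
* `DiscData.exists_unit` : every `g ∈ B`, `g ≠ 0`, is `c * G(W)` with `c ∈ K^×` and `G ∈ B[X]` of
  non-zero reduction (norm formula (N));
* `DiscData.exists_decomp` : every `f ∈ F^×` is `c * G(W) / H(W)`;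
* `IsDiscVal` : the defining property of the disc valuation; `DiscData.exists_isDiscVal`
  (existence, from the circle lemma), `IsDiscVal.mem_iff`, **`IsDiscVal.unique`** (uniqueness),
  **`IsDiscVal.scale`** (`e = 1`), **`IsDiscVal.residue`** (every element of `V` is congruent to
  `G(W) / H(W)` modulo the maximal ideal: the residue field is `k(W̄)` EXACTLY).
-/

noncomputable section

open Polynomial

namespace Fermat.Agent.HPVal

variable {K F k : Type*} [Field K] [Field F] [Algebra K F] [Field k]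

/-- the hypotheses of the disc valuation (circle hypotheses + Taylor division). -/
structure DiscData (A : ValuationSubring K) (res : A →+* k) (O B : Subring F) (π : K) (t : F)
    (ev : B →+* k) : Prop where
  circle : CircleData O B (algebraMap K F π) t ev
  π_mem : π ∈ A
  res_eq_zero_iff : ∀ a : A, res a = 0 ↔ ¬ IsUnit a
  const_mem : ∀ a ∈ A, algebraMap K F a ∈ B
  ev_const : ∀ (a : K) (ha : a ∈ A) (h : algebraMap K F a ∈ B),
    ev ⟨algebraMap K F a, h⟩ = res ⟨a, ha⟩
  taylor : ∀ g ∈ B, ∃ a ∈ A, (g - algebraMap K F a) * t⁻¹ ∈ B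
  sep : ∀ g ∈ B, (∀ N : ℕ, g * (t ^ N)⁻¹ ∈ B) → g = 0
  arch : ∀ c : K, c ≠ 0 → ∃ N : ℕ, A.valuation (π ^ N) < A.valuation c
  frac : ∀ f : F, ∃ g ∈ B, g ≠ 0 ∧ f * g ∈ B

namespace DiscData

variable {A : ValuationSubring K} {res : A →+* k} {O B : Subring F} {π : K} {t : F}
  {ev : B →+* k}

/-- the inclusion `A → B`. -/
def incl (D : DiscData A res O B π t ev) : A →+* B :=
  ((algebraMap K F).comp A.subtype).codRestrict B (fun a => D.const_mem a a.2)

theorem coe_incl (D : DiscData A res O B π t ev) (a : A) :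
    ((D.incl a : B) : F) = algebraMap K F a := rfl

theorem ev_incl (D : DiscData A res O B π t ev) (a : A) : ev (D.incl a) = res a :=
  D.ev_const a a.2 _

theorem π_ne (D : DiscData A res O B π t ev) : π ≠ 0 := by
  intro h
  apply D.circle.ϖ_ne
  rw [h, map_zero]

/-- `t = ϖ * W`. -/
theorem t_eq (D : DiscData A res O B π t ev) :
    algebraMap K F π * (t * (algebraMap K F π)⁻¹) = t := by
  have := D.circle.ϖ_ne
  field_simp

/-- evaluation at `W` of a polynomial with coefficients in `A`. -/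
theorem evalHom_map_incl (D : DiscData A res O B π t ev) (Q : A[X]) :
    CircleData.evalHom B (algebraMap K F π) t (Q.map D.incl) =
      eval₂ ((algebraMap K F).comp A.subtype) (t * (algebraMap K F π)⁻¹) Q := by
  show eval₂ B.subtype (t * (algebraMap K F π)⁻¹) (Q.map D.incl) = _
  rw [Polynomial.eval₂_map]
  rfl

/-- **finite Taylor expansion.** -/
theorem taylorN (D : DiscData A res O B π t ev) (M : ℕ) {g : F} (hg : g ∈ B) :
    ∃ (Q : A[X]) (g' : F), g' ∈ B ∧
      g = eval₂ ((algebraMap K F).comp A.subtype) t Q + t ^ M * g' := by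
  induction M with
  | zero => exact ⟨0, g, hg, by simp⟩
  | succ M ih =>
    obtain ⟨Q, g', hg', e⟩ := ih
    obtain ⟨a, ha, h1⟩ := D.taylor g' hg'
    refine ⟨Q + C (⟨a, ha⟩ : A) * X ^ M, (g' - algebraMap K F a) * t⁻¹, h1, ?_⟩
    rw [eval₂_add, eval₂_mul, eval₂_C, eval₂_pow, eval₂_X, e]
    have ht := D.circle.t_ne
    show _ = _ + algebraMap K F a * t ^ M + _
    field_simp
    ring

/-- the substitution `X ↦ π X` on `A[X]`. -/
def scalePoly (D : DiscData A res O B π t ev) (Q : A[X]) : A[X] :=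
  Q.comp (C (⟨π, D.π_mem⟩ : A) * X)

theorem eval₂_scalePoly (D : DiscData A res O B π t ev) (Q : A[X]) :
    eval₂ ((algebraMap K F).comp A.subtype) (t * (algebraMap K F π)⁻¹) (D.scalePoly Q) =
      eval₂ ((algebraMap K F).comp A.subtype) t Q := by
  unfold scalePoly
  rw [Polynomial.eval₂_comp, eval₂_mul, eval₂_C, eval₂_X]
  congr 1
  exact D.t_eq

theorem coeff_zero_scalePoly (D : DiscData A res O B π t ev) (Q : A[X]) :
    (D.scalePoly Q).coeff 0 = Q.coeff 0 := by
  unfold scalePoly
  rw [Polynomial.coeff_zero_eq_eval_zero, Polynomial.eval_comp, eval_mul, eval_X, mul_zero,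
    ← Polynomial.coeff_zero_eq_eval_zero]

/-- a non-unit of `A` maps to `0` under `ev`. -/
theorem ev_eq_zero_of_val_lt (D : DiscData A res O B π t ev) {x : K} (hx : A.valuation x < 1)
    (h : algebraMap K F x ∈ B) : ev ⟨algebraMap K F x, h⟩ = 0 := by
  have hxA : x ∈ A := (A.valuation_le_one_iff x).mp hx.le
  rw [D.ev_const x hxA h, D.res_eq_zero_iff]
  intro hu
  have h1 : A.valuation x = 1 := (A.valuation_eq_one_iff ⟨x, hxA⟩).mp hu
  rw [h1] at hx
  exact lt_irrefl _ hx

/-- (N), first case: a function with non-zero constant term is a constant times `G(W)`, `G` of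
non-zero reduction. -/
theorem exists_unit_of_const_ne (D : DiscData A res O B π t ev) {g : F} {a : K}
    (ha : a ∈ A) (ha0 : a ≠ 0) (h1 : (g - algebraMap K F a) * t⁻¹ ∈ B) :
    ∃ (c : K) (G : (↥B)[X]), c ≠ 0 ∧ G.map ev ≠ 0 ∧
      g = algebraMap K F c * CircleData.evalHom B (algebraMap K F π) t G := by
  classical
  have ht := D.circle.t_ne
  have hϖ := D.circle.ϖ_ne
  obtain ⟨N, hN⟩ := D.arch a ha0
  obtain ⟨Q₁, g', hg', e⟩ := D.taylorN N h1
  -- the polynomial `Q = a + X Q₁`
  set Q : A[X] := C (⟨a, ha⟩ : A) + X * Q₁ with hQ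
  have hg : g = eval₂ ((algebraMap K F).comp A.subtype) t Q + t ^ (N + 1) * g' := by
    rw [hQ, eval₂_add, eval₂_C, eval₂_mul, eval₂_X]
    have e' : g = algebraMap K F a + t * ((g - algebraMap K F a) * t⁻¹) := by
      field_simp
      ring
    rw [e', e]
    show _ = algebraMap K F a + _ + _
    ring
  set Qs : A[X] := D.scalePoly Q with hQs
  have hQs0 : Qs.coeff 0 = ⟨a, ha⟩ := by
    rw [hQs, D.coeff_zero_scalePoly, hQ]
    simp
  have hQsK : Qs.map A.subtype ≠ 0 := by
    intro h0
    have := congrArg (fun p => p.coeff 0) h0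
    simp only [Polynomial.coeff_map, hQs0, Polynomial.coeff_zero] at this
    exact ha0 this
  obtain ⟨d, Q₂, hd0, hQ₂, i, hi⟩ := rs_exists_primitive A hQsK
  -- `a / d ∈ A`
  have had : a = d * ((Q₂.coeff 0 : A) : K) := by
    have := congrArg (fun p => p.coeff 0) hQ₂
    simp only [Polynomial.coeff_map, hQs0, Polynomial.coeff_C_mul] at this
    exact this
  have hval : A.valuation a ≤ A.valuation d := by
    rw [had, map_mul]
    have h2 : A.valuation ((Q₂.coeff 0 : A) : K) ≤ 1 :=
      (A.valuation_le_one_iff _).mpr (Q₂.coeff 0).2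
    calc A.valuation d * A.valuation ((Q₂.coeff 0 : A) : K) ≤ A.valuation d * 1 :=
          mul_le_mul_right h2 _
      _ = A.valuation d := mul_one _
  have hπ1 : A.valuation π ≤ 1 := (A.valuation_le_one_iff _).mpr D.π_mem
  have hsmall : A.valuation (π ^ (N + 1) * d⁻¹) < 1 := by
    rw [map_mul, map_inv₀]
    have hd' : 0 < A.valuation d := zero_lt_iff.mpr ((Valuation.ne_zero_iff _).mpr hd0)
    rw [mul_inv_lt_iff₀ hd', one_mul]
    calc A.valuation (π ^ (N + 1)) = A.valuation (π ^ N) * A.valuation π := by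
          rw [pow_succ, map_mul]
      _ ≤ A.valuation (π ^ N) * 1 := mul_le_mul_right hπ1 _
      _ = A.valuation (π ^ N) := mul_one _
      _ < A.valuation a := hN
      _ ≤ A.valuation d := hval
  have hsmallA : π ^ (N + 1) * d⁻¹ ∈ A := (A.valuation_le_one_iff _).mp hsmall.le
  have hcB : algebraMap K F (π ^ (N + 1) * d⁻¹) ∈ B := D.const_mem _ hsmallA
  set b : B := ⟨algebraMap K F (π ^ (N + 1) * d⁻¹), hcB⟩ * ⟨g', hg'⟩ with hb
  have hevb : ev b = 0 := by
    rw [hb, map_mul, D.ev_eq_zero_of_val_lt hsmall hcB, zero_mul]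
  refine ⟨d, Q₂.map D.incl + C b * X ^ (N + 1), hd0, ?_, ?_⟩
  · rw [Polynomial.map_add, Polynomial.map_mul, Polynomial.map_C, hevb, C_0, zero_mul, add_zero]
    intro h0
    have := congrArg (fun p => p.coeff i) h0
    simp only [Polynomial.coeff_map, hi, map_one, Polynomial.coeff_zero] at this
    exact one_ne_zero this
  · rw [map_add, D.evalHom_map_incl, map_mul, CircleData.evalHom_C, map_pow,
      CircleData.evalHom_X]
    -- `d * Q₂(W) = Qs(W) = Q(t)`
    have h2 : algebraMap K F d *
        eval₂ ((algebraMap K F).comp A.subtype) (t * (algebraMap K F π)⁻¹) Q₂ =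
        eval₂ ((algebraMap K F).comp A.subtype) t Q := by
      rw [← D.eval₂_scalePoly Q, ← hQs]
      have h3 : eval₂ ((algebraMap K F).comp A.subtype) (t * (algebraMap K F π)⁻¹) Qs =
          eval₂ (algebraMap K F) (t * (algebraMap K F π)⁻¹) (Qs.map A.subtype) := by
        rw [Polynomial.eval₂_map]
      rw [h3, hQ₂, eval₂_mul, eval₂_C, Polynomial.eval₂_map]
    rw [mul_add, h2, hg]
    congr 1
    show _ = algebraMap K F d * (algebraMap K F (π ^ (N + 1) * d⁻¹) * g' *
      (t * (algebraMap K F π)⁻¹) ^ (N + 1))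
    rw [map_mul, map_pow, map_inv₀, mul_pow, inv_pow]
    have hd' : algebraMap K F d ≠ 0 := (map_ne_zero_iff _ (algebraMap K F).injective).mpr hd0
    have hp : algebraMap K F π ^ (N + 1) ≠ 0 := pow_ne_zero _ hϖ
    field_simp

/-- **(N), norm formula**: every non-zero `g ∈ B` is a constant times `G(W)` with `G ∈ B[X]` of
non-zero reduction. -/
theorem exists_unit (D : DiscData A res O B π t ev) {g : F} (hg : g ∈ B) (hg0 : g ≠ 0) :
    ∃ (c : K) (G : (↥B)[X]), c ≠ 0 ∧ G.map ev ≠ 0 ∧
      g = algebraMap K F c * CircleData.evalHom B (algebraMap K F π) t G := by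
  have ht := D.circle.t_ne
  have hϖ := D.circle.ϖ_ne
  have hex : ∃ N : ℕ, g * (t ^ N)⁻¹ ∉ B := by
    by_contra hcon
    simp only [not_exists, not_not] at hcon
    exact hg0 (D.sep g hg hcon)
  obtain ⟨N, hN⟩ := hex
  induction N generalizing g with
  | zero =>
    exfalso
    apply hN
    rw [pow_zero, inv_one, mul_one]
    exact hg
  | succ N ih =>
    obtain ⟨a, ha, h1⟩ := D.taylor g hg
    rcases eq_or_ne a 0 with rfl | ha0
    · rw [map_zero, sub_zero] at h1
      have hg1 : g * t⁻¹ ≠ 0 := mul_ne_zero hg0 (inv_ne_zero ht)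
      have hN1 : g * t⁻¹ * (t ^ N)⁻¹ ∉ B := by
        intro h
        apply hN
        have e : g * (t ^ (N + 1))⁻¹ = g * t⁻¹ * (t ^ N)⁻¹ := by
          rw [pow_succ, mul_inv]
          ring
        rw [e]
        exact h
      obtain ⟨c, G, hc0, hG, e⟩ := ih h1 hg1 hN1
      refine ⟨π * c, X * G, mul_ne_zero D.π_ne hc0, ?_, ?_⟩
      · rw [Polynomial.map_mul, Polynomial.map_X]
        exact mul_ne_zero Polynomial.X_ne_zero hG
      · have hX : CircleData.evalHom B (algebraMap K F π) t (X * G) =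
            (t * (algebraMap K F π)⁻¹) * CircleData.evalHom B (algebraMap K F π) t G := by
          rw [map_mul, CircleData.evalHom_X]
        rw [hX, map_mul]
        have e' : g = t * (g * t⁻¹) := by
          field_simp
        rw [e', e]
        field_simp
    · exact D.exists_unit_of_const_ne ha ha0 h1

/-- **decomposition**: every non-zero `f ∈ F` is `c * G(W) / H(W)`. -/
theorem exists_decomp (D : DiscData A res O B π t ev) {f : F} (hf : f ≠ 0) :
    ∃ (c : K) (G H : (↥B)[X]), c ≠ 0 ∧ G.map ev ≠ 0 ∧ H.map ev ≠ 0 ∧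
      CircleData.evalHom B (algebraMap K F π) t H ≠ 0 ∧
      f * CircleData.evalHom B (algebraMap K F π) t H =
        algebraMap K F c * CircleData.evalHom B (algebraMap K F π) t G := by
  obtain ⟨h, hh, hh0, hfh⟩ := D.frac f
  obtain ⟨c₁, G, hc₁, hG, e₁⟩ := D.exists_unit hfh (mul_ne_zero hf hh0)
  obtain ⟨c₂, H, hc₂, hH, e₂⟩ := D.exists_unit hh hh0
  have hc₂' : algebraMap K F c₂ ≠ 0 := (map_ne_zero_iff _ (algebraMap K F).injective).mpr hc₂
  have hH0 : CircleData.evalHom B (algebraMap K F π) t H ≠ 0 := by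
    intro h0
    apply hh0
    rw [e₂, h0, mul_zero]
  refine ⟨c₁ * c₂⁻¹, G, H, mul_ne_zero hc₁ (inv_ne_zero hc₂), hG, hH, hH0, ?_⟩
  rw [map_mul, map_inv₀]
  have e₃ : f * (algebraMap K F c₂ * CircleData.evalHom B (algebraMap K F π) t H) =
      algebraMap K F c₁ * CircleData.evalHom B (algebraMap K F π) t G := by
    rw [← e₂, e₁]
  field_simp
  linear_combination e₃

end DiscData

/-- the defining property of the disc valuation `V`: it lies over `A` and `G(W)` is a unit of `V`
for every `G ∈ B[X]` of non-zero reduction. -/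
structure IsDiscVal (A : ValuationSubring K) (B : Subring F) (π : K) (t : F) (ev : B →+* k)
    (V : ValuationSubring F) : Prop where
  mem_iff : ∀ c : K, algebraMap K F c ∈ V ↔ c ∈ A
  unit : ∀ G : (↥B)[X], G.map ev ≠ 0 →
    CircleData.evalHom B (algebraMap K F π) t G ∈ V ∧
      (CircleData.evalHom B (algebraMap K F π) t G)⁻¹ ∈ V

namespace DiscData

variable {A : ValuationSubring K} {res : A →+* k} {O B : Subring F} {π : K} {t : F}
  {ev : B →+* k}

/-- `G(W) ≠ 0` if `G` has non-zero reduction. -/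
theorem evalHom_ne_zero (D : DiscData A res O B π t ev) {G : (↥B)[X]} (hG : G.map ev ≠ 0) :
    CircleData.evalHom B (algebraMap K F π) t G ≠ 0 := fun h0 =>
  hG (D.circle.ker_le G h0)

/-- **existence** of the disc valuation (from the circle lemma). -/
theorem exists_isDiscVal (D : DiscData A res O B π t ev) :
    ∃ V : ValuationSubring F, IsDiscVal A B π t ev V ∧ (∀ b ∈ B, b ∈ V) ∧
      (∀ b : B, (b : F) ∈ V.nonunits ↔ ev b = 0) ∧
      ∀ G : (↥B)[X],
        (CircleData.evalHom B (algebraMap K F π) t G ∈ V.nonunits ↔ G.map ev = 0) := by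
  obtain ⟨V, hB, -, -, hnu, hG, hunit⟩ := D.circle.exists_circle'
  refine ⟨V, ⟨fun c => ⟨fun hc => ?_, fun hc => hB _ (D.const_mem c hc)⟩, hunit⟩, hB, hnu, hG⟩
  by_contra hcA
  have hc0 : c ≠ 0 := by
    rintro rfl
    exact hcA A.zero_mem
  have hinv : c⁻¹ ∈ A := (A.mem_or_inv_mem c).resolve_left hcA
  have hval : A.valuation c⁻¹ < 1 := by
    rw [map_inv₀]
    have h1 : ¬ A.valuation c ≤ 1 := fun h => hcA ((A.valuation_le_one_iff c).mp h)
    have h2 : 1 < A.valuation c := not_le.mp h1
    exact inv_lt_one_of_one_lt₀ h2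
  have hB' : algebraMap K F c⁻¹ ∈ B := D.const_mem _ hinv
  have h0 : ev ⟨algebraMap K F c⁻¹, hB'⟩ = 0 := D.ev_eq_zero_of_val_lt hval hB'
  have h1 : algebraMap K F c⁻¹ ∈ V.nonunits := (hnu ⟨_, hB'⟩).mpr h0
  rw [ValuationSubring.mem_nonunits_iff_or] at h1
  rcases h1 with h1 | h1
  · apply hc0
    have : c⁻¹ = 0 := (map_eq_zero_iff _ (algebraMap K F).injective).mp h1
    exact inv_eq_zero.mp this
  · apply h1
    rw [map_inv₀, inv_inv]
    exact hc

/-- membership in a disc valuation is read off from a decomposition. -/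
theorem mem_iff_of_decomp (D : DiscData A res O B π t ev) {V : ValuationSubring F}
    (hV : IsDiscVal A B π t ev V) {f : F} {c : K} {G H : (↥B)[X]}
    (hG : G.map ev ≠ 0) (hH : H.map ev ≠ 0)
    (e : f * CircleData.evalHom B (algebraMap K F π) t H =
      algebraMap K F c * CircleData.evalHom B (algebraMap K F π) t G) :
    f ∈ V ↔ c ∈ A := by
  obtain ⟨hG1, hG2⟩ := hV.unit G hG
  obtain ⟨hH1, hH2⟩ := hV.unit H hH
  have hG0 := D.evalHom_ne_zero hG
  have hH0 := D.evalHom_ne_zero hH
  constructor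
  · intro hf
    rw [← hV.mem_iff]
    have e' : algebraMap K F c = f * CircleData.evalHom B (algebraMap K F π) t H *
        (CircleData.evalHom B (algebraMap K F π) t G)⁻¹ := by
      rw [e, mul_assoc, mul_inv_cancel₀ hG0, mul_one]
    rw [e']
    exact V.mul_mem _ _ (V.mul_mem _ _ hf hH1) hG2
  · intro hc
    have e' : f = algebraMap K F c * CircleData.evalHom B (algebraMap K F π) t G *
        (CircleData.evalHom B (algebraMap K F π) t H)⁻¹ := by
      rw [← e, mul_assoc, mul_inv_cancel₀ hH0, mul_one]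
    rw [e']
    exact V.mul_mem _ _ (V.mul_mem _ _ ((hV.mem_iff c).mpr hc) hG1) hH2

/-- **uniqueness** of the disc valuation. -/
theorem isDiscVal_unique (D : DiscData A res O B π t ev) {V V' : ValuationSubring F}
    (hV : IsDiscVal A B π t ev V) (hV' : IsDiscVal A B π t ev V') : V = V' := by
  ext f
  rcases eq_or_ne f 0 with rfl | hf
  · exact ⟨fun _ => V'.zero_mem, fun _ => V.zero_mem⟩
  obtain ⟨c, G, H, -, hG, hH, -, e⟩ := D.exists_decomp hf
  rw [D.mem_iff_of_decomp hV hG hH e, D.mem_iff_of_decomp hV' hG hH e]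

/-- **scale** (`e = 1`): every non-zero function is a constant times a unit of `V`. -/
theorem isDiscVal_scale (D : DiscData A res O B π t ev) {V : ValuationSubring F}
    (hV : IsDiscVal A B π t ev V) {f : F} (hf : f ≠ 0) :
    ∃ c : K, c ≠ 0 ∧ f * (algebraMap K F c)⁻¹ ∈ V ∧ (f * (algebraMap K F c)⁻¹)⁻¹ ∈ V := by
  obtain ⟨c, G, H, hc, hG, hH, hH0, e⟩ := D.exists_decomp hf
  obtain ⟨hG1, hG2⟩ := hV.unit G hG
  obtain ⟨hH1, hH2⟩ := hV.unit H hH
  have hG0 := D.evalHom_ne_zero hG
  have hc' : algebraMap K F c ≠ 0 := (map_ne_zero_iff _ (algebraMap K F).injective).mpr hc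
  have e' : f * (algebraMap K F c)⁻¹ = CircleData.evalHom B (algebraMap K F π) t G *
      (CircleData.evalHom B (algebraMap K F π) t H)⁻¹ := by
    field_simp
    linear_combination e
  refine ⟨c, hc, ?_, ?_⟩
  · rw [e']
    exact V.mul_mem _ _ hG1 hH2
  · rw [e', mul_inv, inv_inv]
    exact V.mul_mem _ _ hG2 hH1

/-- in a disc valuation, `G(W)` is a non-unit exactly if `G` reduces to `0`. -/
theorem isDiscVal_nonunits_iff (D : DiscData A res O B π t ev) {V : ValuationSubring F}
    (hV : IsDiscVal A B π t ev V) (G : (↥B)[X]) :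
    CircleData.evalHom B (algebraMap K F π) t G ∈ V.nonunits ↔ G.map ev = 0 := by
  obtain ⟨V₀, hV₀, -, -, hG⟩ := D.exists_isDiscVal
  rw [D.isDiscVal_unique hV hV₀]
  exact hG G

/-- a disc valuation contains `B`. -/
theorem isDiscVal_le (D : DiscData A res O B π t ev) {V : ValuationSubring F}
    (hV : IsDiscVal A B π t ev V) : ∀ b ∈ B, b ∈ V := by
  obtain ⟨V₀, hV₀, hB, -, -⟩ := D.exists_isDiscVal
  rw [D.isDiscVal_unique hV hV₀]
  exact hB

/-- **the residue field is `k(W̄)` exactly**: every element of `V` is congruent to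
`c * G(W) / H(W)`, `c ∈ A`. -/
theorem isDiscVal_residue (D : DiscData A res O B π t ev) {V : ValuationSubring F}
    (hV : IsDiscVal A B π t ev V) {f : F} (hf : f ∈ V) :
    ∃ (c : K) (G H : (↥B)[X]), c ∈ A ∧ G.map ev ≠ 0 ∧ H.map ev ≠ 0 ∧
      f * CircleData.evalHom B (algebraMap K F π) t H =
        algebraMap K F c * CircleData.evalHom B (algebraMap K F π) t G := by
  rcases eq_or_ne f 0 with rfl | hf0
  · refine ⟨0, 1, 1, A.zero_mem, ?_, ?_, by simp⟩ <;>
    · rw [Polynomial.map_one]
      exact one_ne_zero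
  obtain ⟨c, G, H, -, hG, hH, -, e⟩ := D.exists_decomp hf0
  exact ⟨c, G, H, (D.mem_iff_of_decomp hV hG hH e).mp hf, hG, hH, e⟩

end DiscData

end Fermat.Agent.HPVal
end
end MergeWrap_Lib_BadRed_HPVal_DiscNorm
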