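import Mathlib
import Fermat.Agent.MUL.Orig.Lib.BadRed.HPVal.DiscLat
import Fermat.Agent.MUL.Lib.Deuring.Setup
import Fermat.Agent.MUL.Lib.BadRed.HPVal.DiscLatAsm

section MergeWrap_Lib_BadRed_HPVal_DiscLatMain -- from Lib/BadRed/HPVal/DiscLatMain.lean

set_option autoImplicit false
set_option linter.unusedSectionVars false
set_option linter.unusedVariables false
set_option linter.style.longLine false

noncomputable section

namespace Fermat.Agent.HPVal

open Polynomial

variable {K F k Fk : Type*} [Field K] [Field F] [Algebra K F] [Field k] [Field Fk] [Algebra k Fk]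

/-- `f` is a constant multiple of an element of `R`. -/
def dlInV (K : Type*) {F : Type*} [Field K] [Field F] [Algebra K F] (R : Subring F) (f : F) :
    Prop :=
  ∃ c : K, c ≠ 0 ∧ algebraMap K F c * f ∈ R

open Classical in
/-- the `n`-th Taylor coefficient, extended to `K · R` by homogeneity (and by `0` elsewhere). -/
def dlL (R : Subring F) (t : F) (ev : F → K) (n : ℕ) (f : F) : K :=
  if h : dlInV K R f then
    (Classical.choose h)⁻¹ * dlCoef t ev n (algebraMap K F (Classical.choose h) * f)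
  else 0

namespace DiscLatData

variable {A : ValuationSubring K} {O : ValuationSubring F} {res : A →+* k} {ρ : O →+* Fk}
  {R : Subring F} {t : F} {π : K} {ev : F → K}

section Red

variable (D : DiscLatData A O res ρ R t π ev)
include D

theorem dlRed_add {x y : F} (hx : x ∈ O) (hy : y ∈ O) :
    dlRed O ρ (x + y) = dlRed O ρ x + dlRed O ρ y := by
  rw [dlRed_of_mem O ρ hx, dlRed_of_mem O ρ hy, dlRed_of_mem O ρ (O.add_mem _ _ hx hy),
    ← map_add]
  rfl

theorem dlRed_mul {x y : F} (hx : x ∈ O) (hy : y ∈ O) :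
    dlRed O ρ (x * y) = dlRed O ρ x * dlRed O ρ y := by
  rw [dlRed_of_mem O ρ hx, dlRed_of_mem O ρ hy, dlRed_of_mem O ρ (O.mul_mem _ _ hx hy),
    ← map_mul]
  rfl

theorem dlRed_one : dlRed O ρ (1 : F) = 1 := by
  rw [dlRed_of_mem O ρ O.one_mem]
  exact map_one ρ

theorem dlRed_zero : dlRed O ρ (0 : F) = 0 := by
  rw [dlRed_of_mem O ρ O.zero_mem]
  exact map_zero ρ

theorem dlRed_pow {x : F} (hx : x ∈ O) (n : ℕ) :
    dlRed O ρ (x ^ n) = dlRed O ρ x ^ n := by
  induction n with
  | zero => simpa using D.dlRed_one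
  | succ n ih => rw [pow_succ, pow_succ, D.dlRed_mul (O.pow_mem hx n) hx, ih]

theorem const_mem {c : K} (hc : c ∈ A) : algebraMap K F c ∈ O := (D.mem_O_iff c).mpr hc

theorem dlRed_const {c : K} (hc : c ∈ A) :
    dlRed O ρ (algebraMap K F c) = algebraMap k Fk (dlRes A res c) := by
  rw [dlRed_of_mem O ρ (D.const_mem hc), dlRes_of_mem A res hc]
  exact D.ρ_algebraMap c hc _

/-- a constant of absolute value `< 1` reduces to `0`. -/
theorem dlRed_const_small {c : K} (hc : A.valuation c < 1) : dlRed O ρ (algebraMap K F c) = 0 := by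
  have hcA : c ∈ A := (ValuationSubring.valuation_le_one_iff A c).mp (le_of_lt hc)
  rw [dlRed_of_mem O ρ (D.const_mem hcA), D.ρ_eq_zero_iff]
  intro hu
  obtain ⟨u, hu⟩ := hu
  have h1 : (algebraMap K F c) * ((u⁻¹ : Oˣ) : O) = 1 := by
    have := u.mul_inv
    have h2 := congrArg (fun x : O => (x : F)) this
    simp only [hu] at h2
    simpa using h2
  have hc0 : c ≠ 0 := by
    rintro rfl
    simp at h1
  have h3 : (((u⁻¹ : Oˣ) : O) : F) = algebraMap K F c⁻¹ := by
    rw [map_inv₀]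
    have hne : algebraMap K F c ≠ 0 := by
      rw [Ne, map_eq_zero]
      exact hc0
    field_simp
    rw [mul_comm]
    exact h1
  have h4 : algebraMap K F c⁻¹ ∈ O := by
    rw [← h3]
    exact ((u⁻¹ : Oˣ) : O).2
  have h5 : c⁻¹ ∈ A := (D.mem_O_iff _).mp h4
  have h6 : A.valuation c⁻¹ ≤ 1 := (ValuationSubring.valuation_le_one_iff A _).mpr h5
  rw [map_inv₀] at h6
  have hv0 : A.valuation c ≠ 0 := (Valuation.ne_zero_iff _).mpr hc0
  have h7 : 1 ≤ A.valuation c := by
    rwa [inv_le_one₀ (zero_lt_iff.mpr hv0)] at h6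
  exact absurd hc (not_lt.mpr h7)

theorem dlRes_small {c : K} (hc : A.valuation c < 1) : dlRes A res c = 0 := by
  have hcA : c ∈ A := (ValuationSubring.valuation_le_one_iff A c).mp (le_of_lt hc)
  have h1 := D.dlRed_const hcA
  rw [D.dlRed_const_small hc] at h1
  have hinj : Function.Injective (algebraMap k Fk) := (algebraMap k Fk).injective
  apply hinj
  rw [map_zero]
  exact h1.symm

theorem dlRes_one : dlRes A res (1 : K) = 1 := by
  rw [dlRes_of_mem A res A.one_mem]
  exact map_one res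

theorem dlRes_zero : dlRes A res (0 : K) = 0 := by
  rw [dlRes_of_mem A res A.zero_mem]
  exact map_zero res

theorem dlRed_sum {ι : Type*} (s : Finset ι) (x : ι → F) (hx : ∀ i ∈ s, x i ∈ O) :
    (∑ i ∈ s, x i) ∈ O ∧ dlRed O ρ (∑ i ∈ s, x i) = ∑ i ∈ s, dlRed O ρ (x i) := by
  classical
  induction s using Finset.induction_on with
  | empty =>
    simp only [Finset.sum_empty]
    exact ⟨O.zero_mem, D.dlRed_zero⟩
  | insert a s ha ih =>
    have h1 : ∀ i ∈ s, x i ∈ O := fun i hi => hx i (Finset.mem_insert_of_mem hi)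
    have h2 := ih h1
    have h3 : x a ∈ O := hx a (Finset.mem_insert_self a s)
    rw [Finset.sum_insert ha, Finset.sum_insert ha]
    exact ⟨O.add_mem _ _ h3 h2.1, by rw [D.dlRed_add h3 h2.1, h2.2]⟩

end Red


section Lfun

variable (D : DiscLatData A O res ρ R t π ev)
include D

theorem algebraMap_ne_zero {c : K} (hc : c ≠ 0) : algebraMap K F c ≠ 0 := by
  rw [Ne, map_eq_zero]
  exact hc

theorem inV_of_mem {g : F} (hg : g ∈ R) : dlInV K R g :=
  ⟨1, one_ne_zero, by rw [map_one, one_mul]; exact hg⟩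

theorem inV_zero : dlInV K R (0 : F) := D.inV_of_mem R.zero_mem

/-- two elements of `K · R` have a common scaling into `R`. -/
theorem exists_common {f₁ f₂ : F} (h₁ : dlInV K R f₁) (h₂ : dlInV K R f₂) :
    ∃ c : K, c ≠ 0 ∧ algebraMap K F c * f₁ ∈ R ∧ algebraMap K F c * f₂ ∈ R := by
  obtain ⟨c₁, hc₁, hf₁⟩ := h₁
  obtain ⟨c₂, hc₂, hf₂⟩ := h₂
  rcases A.mem_or_inv_mem (c₁ * c₂⁻¹) with h | h
  · refine ⟨c₁, hc₁, hf₁, ?_⟩
    have : algebraMap K F c₁ * f₂ = algebraMap K F (c₁ * c₂⁻¹) * (algebraMap K F c₂ * f₂) := by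
      rw [← mul_assoc, ← map_mul, mul_assoc, inv_mul_cancel₀ hc₂, mul_one]
    rw [this]
    exact D.smul_mem_R h hf₂
  · refine ⟨c₂, hc₂, ?_, hf₂⟩
    have h' : c₂ * c₁⁻¹ ∈ A := by
      have : (c₁ * c₂⁻¹)⁻¹ = c₂ * c₁⁻¹ := by
        rw [mul_inv, inv_inv, mul_comm]
      rwa [this] at h
    have : algebraMap K F c₂ * f₁ = algebraMap K F (c₂ * c₁⁻¹) * (algebraMap K F c₁ * f₁) := by
      rw [← mul_assoc, ← map_mul, mul_assoc, inv_mul_cancel₀ hc₁, mul_one]
    rw [this]
    exact D.smul_mem_R h' hf₁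

theorem inV_add {f₁ f₂ : F} (h₁ : dlInV K R f₁) (h₂ : dlInV K R f₂) : dlInV K R (f₁ + f₂) := by
  obtain ⟨c, hc, hf₁, hf₂⟩ := D.exists_common h₁ h₂
  exact ⟨c, hc, by rw [mul_add]; exact R.add_mem hf₁ hf₂⟩

theorem inV_smul (x : K) {f : F} (h : dlInV K R f) : dlInV K R (algebraMap K F x * f) := by
  by_cases hx : x = 0
  · subst hx
    rw [map_zero, zero_mul]
    exact D.inV_zero
  · obtain ⟨c, hc, hf⟩ := h
    refine ⟨c * x⁻¹, mul_ne_zero hc (inv_ne_zero hx), ?_⟩
    have : algebraMap K F (c * x⁻¹) * (algebraMap K F x * f) = algebraMap K F c * f := by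
      rw [← mul_assoc, ← map_mul, mul_assoc, inv_mul_cancel₀ hx, mul_one]
    rw [this]
    exact hf

theorem inV_mul_mem {f g : F} (h : dlInV K R f) (hg : g ∈ R) : dlInV K R (f * g) := by
  obtain ⟨c, hc, hf⟩ := h
  exact ⟨c, hc, by rw [← mul_assoc]; exact R.mul_mem hf hg⟩

/-- the scaled coefficient does not depend on the scaling (one direction). -/
theorem coef_scale_aux (n : ℕ) {f : F} {c c' : K} (hc : c ≠ 0) (hc' : c' ≠ 0)
    (hf : algebraMap K F c * f ∈ R) (hrat : c' * c⁻¹ ∈ A) :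
    c'⁻¹ * dlCoef t ev n (algebraMap K F c' * f) = c⁻¹ * dlCoef t ev n (algebraMap K F c * f) := by
  have h1 : algebraMap K F c' * f = algebraMap K F (c' * c⁻¹) * (algebraMap K F c * f) := by
    rw [← mul_assoc, ← map_mul, mul_assoc, inv_mul_cancel₀ hc, mul_one]
  rw [h1, D.coef_smul hrat hf n]
  field_simp

theorem coef_scale (n : ℕ) {f : F} {c c' : K} (hc : c ≠ 0) (hc' : c' ≠ 0)
    (hf : algebraMap K F c * f ∈ R) (hf' : algebraMap K F c' * f ∈ R) :
    c'⁻¹ * dlCoef t ev n (algebraMap K F c' * f) = c⁻¹ * dlCoef t ev n (algebraMap K F c * f) := by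
  rcases A.mem_or_inv_mem (c' * c⁻¹) with h | h
  · exact D.coef_scale_aux n hc hc' hf h
  · have h' : c * c'⁻¹ ∈ A := by
      have : (c' * c⁻¹)⁻¹ = c * c'⁻¹ := by
        rw [mul_inv, inv_inv, mul_comm]
      rwa [this] at h
    exact (D.coef_scale_aux n hc' hc hf' h').symm

/-- the value of `dlL` through any scaling. -/
theorem L_eq (n : ℕ) {f : F} {c : K} (hc : c ≠ 0) (hf : algebraMap K F c * f ∈ R) :
    dlL R t ev n f = c⁻¹ * dlCoef t ev n (algebraMap K F c * f) := by
  have h : dlInV K R f := ⟨c, hc, hf⟩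
  unfold dlL
  rw [dif_pos h]
  exact D.coef_scale n hc (Classical.choose_spec h).1 hf (Classical.choose_spec h).2

theorem L_of_mem (n : ℕ) {g : F} (hg : g ∈ R) : dlL R t ev n g = dlCoef t ev n g := by
  have h1 : algebraMap K F (1 : K) * g ∈ R := by rw [map_one, one_mul]; exact hg
  rw [D.L_eq n one_ne_zero h1, map_one, one_mul, inv_one, one_mul]

theorem L_zero (n : ℕ) : dlL R t ev n (0 : F) = 0 := by
  rw [D.L_of_mem n R.zero_mem, D.coef_zero]

theorem L_add (n : ℕ) {f₁ f₂ : F} (h₁ : dlInV K R f₁) (h₂ : dlInV K R f₂) :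
    dlL R t ev n (f₁ + f₂) = dlL R t ev n f₁ + dlL R t ev n f₂ := by
  obtain ⟨c, hc, hf₁, hf₂⟩ := D.exists_common h₁ h₂
  have h12 : algebraMap K F c * (f₁ + f₂) ∈ R := by rw [mul_add]; exact R.add_mem hf₁ hf₂
  rw [D.L_eq n hc h12, D.L_eq n hc hf₁, D.L_eq n hc hf₂, mul_add, D.coef_add hf₁ hf₂ n, mul_add]

theorem L_smul (n : ℕ) (x : K) {f : F} (h : dlInV K R f) :
    dlL R t ev n (algebraMap K F x * f) = x * dlL R t ev n f := by
  by_cases hx : x = 0
  · subst hx
    rw [map_zero, zero_mul, zero_mul]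
    exact D.L_zero n
  · obtain ⟨c, hc, hf⟩ := h
    have hcx : c * x⁻¹ ≠ 0 := mul_ne_zero hc (inv_ne_zero hx)
    have h1 : algebraMap K F (c * x⁻¹) * (algebraMap K F x * f) = algebraMap K F c * f := by
      rw [← mul_assoc, ← map_mul, mul_assoc, inv_mul_cancel₀ hx, mul_one]
    have h2 : algebraMap K F (c * x⁻¹) * (algebraMap K F x * f) ∈ R := by rw [h1]; exact hf
    rw [D.L_eq n hcx h2, h1, D.L_eq n hc hf]
    field_simp

end Lfun


section Norm

variable (D : DiscLatData A O res ρ R t π ev)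
include D

theorem t_pow_eq (n : ℕ) :
    t ^ n = algebraMap K F (π ^ n) * (t * (algebraMap K F π)⁻¹) ^ n := by
  have hπ : algebraMap K F π ≠ 0 := D.algebraMap_ne_zero D.π_ne
  rw [map_pow, ← mul_pow]
  congr 1
  field_simp

/-- **norm formula**: an element of `K · R` whose scaled Taylor coefficients are integral lies in
`O`, and its residue is the polynomial in `Ȳ` with the residues of the scaled coefficients. -/
theorem norm_red {f : F} (hf : dlInV K R f) (hn : ∀ n, dlL R t ev n f * π ^ n ∈ A) :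
    f ∈ O ∧ ∃ N : ℕ, (∀ n, N ≤ n → dlRes A res (dlL R t ev n f * π ^ n) = 0) ∧
      dlRed O ρ f = ∑ n ∈ Finset.range N,
        algebraMap k Fk (dlRes A res (dlL R t ev n f * π ^ n)) *
          (dlRed O ρ (t * (algebraMap K F π)⁻¹)) ^ n := by
  obtain ⟨c, hc, hg⟩ := hf
  obtain ⟨N, hN⟩ := D.arch c hc
  have hL : ∀ n, dlL R t ev n f = c⁻¹ * dlCoef t ev n (algebraMap K F c * f) :=
    fun n => D.L_eq n hc hg
  have hT := D.taylor hg N
  have hYO : t * (algebraMap K F π)⁻¹ ∈ O := D.Y_mem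
  have hv0 : A.valuation c ≠ 0 := (Valuation.ne_zero_iff _).mpr hc
  have hsmall : A.valuation (c⁻¹ * π ^ N) < 1 := by
    rw [map_mul, map_inv₀, inv_mul_lt_iff₀ (zero_lt_iff.mpr hv0), mul_one]
    exact hN
  have hcne : algebraMap K F c ≠ 0 := D.algebraMap_ne_zero hc
  have hexp : f = ∑ n ∈ Finset.range N, algebraMap K F (dlL R t ev n f * π ^ n) *
        (t * (algebraMap K F π)⁻¹) ^ n +
      algebraMap K F (c⁻¹ * π ^ N) *
        ((t * (algebraMap K F π)⁻¹) ^ N * (dlD t ev)^[N] (algebraMap K F c * f)) := by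
    have h1 : f = algebraMap K F c⁻¹ * (algebraMap K F c * f) := by
      rw [← mul_assoc, ← map_mul, inv_mul_cancel₀ hc, map_one, one_mul]
    have h2 : algebraMap K F c⁻¹ * (algebraMap K F c * f) =
        algebraMap K F c⁻¹ * (∑ n ∈ Finset.range N,
          algebraMap K F (dlCoef t ev n (algebraMap K F c * f)) * t ^ n +
          t ^ N * (dlD t ev)^[N] (algebraMap K F c * f)) := by
      rw [← hT]
    rw [mul_add, Finset.mul_sum] at h2
    have h3 : ∑ n ∈ Finset.range N, algebraMap K F c⁻¹ *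
          (algebraMap K F (dlCoef t ev n (algebraMap K F c * f)) * t ^ n) =
        ∑ n ∈ Finset.range N, algebraMap K F (dlL R t ev n f * π ^ n) *
          (t * (algebraMap K F π)⁻¹) ^ n := by
      apply Finset.sum_congr rfl
      intro n _
      rw [hL n, D.t_pow_eq n]
      simp only [map_mul]
      ring
    have h4 : algebraMap K F c⁻¹ * (t ^ N * (dlD t ev)^[N] (algebraMap K F c * f)) =
        algebraMap K F (c⁻¹ * π ^ N) *
          ((t * (algebraMap K F π)⁻¹) ^ N * (dlD t ev)^[N] (algebraMap K F c * f)) := by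
      rw [D.t_pow_eq N]
      simp only [map_mul]
      ring
    calc f = algebraMap K F c⁻¹ * (algebraMap K F c * f) := h1
      _ = _ := h2
      _ = _ := by rw [h3, h4]
  have hterm : ∀ n ∈ Finset.range N, algebraMap K F (dlL R t ev n f * π ^ n) *
      (t * (algebraMap K F π)⁻¹) ^ n ∈ O :=
    fun n _ => O.mul_mem _ _ (D.const_mem (hn n)) (O.pow_mem hYO n)
  have hsum := D.dlRed_sum (Finset.range N) (fun n => algebraMap K F (dlL R t ev n f * π ^ n) *
      (t * (algebraMap K F π)⁻¹) ^ n) hterm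
  have hsmallA : c⁻¹ * π ^ N ∈ A :=
    (ValuationSubring.valuation_le_one_iff A _).mp (le_of_lt hsmall)
  have hremO : (t * (algebraMap K F π)⁻¹) ^ N * (dlD t ev)^[N] (algebraMap K F c * f) ∈ O :=
    O.mul_mem _ _ (O.pow_mem hYO N) (D.R_le _ (D.iter_mem hg N))
  have hrem : algebraMap K F (c⁻¹ * π ^ N) *
      ((t * (algebraMap K F π)⁻¹) ^ N * (dlD t ev)^[N] (algebraMap K F c * f)) ∈ O :=
    O.mul_mem _ _ (D.const_mem hsmallA) hremO
  have hfO : f ∈ O := by
    rw [hexp]
    exact O.add_mem _ _ hsum.1 hrem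
  refine ⟨hfO, N, ?_, ?_⟩
  · intro n hNn
    apply D.dlRes_small
    rw [hL n]
    have h1 : A.valuation (c⁻¹ * dlCoef t ev n (algebraMap K F c * f) * π ^ n) ≤
        A.valuation (c⁻¹ * π ^ N) := by
      rw [mul_assoc, map_mul, map_mul (A.valuation) c⁻¹]
      exact mul_le_mul' le_rfl (le_trans (D.val_coef_mul_le hg n) (D.val_pi_pow_le hNn))
    exact lt_of_le_of_lt h1 hsmall
  · conv_lhs => rw [hexp]
    rw [D.dlRed_add hsum.1 hrem, hsum.2, D.dlRed_mul (D.const_mem hsmallA) hremO,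
      D.dlRed_const_small hsmall, zero_mul, add_zero]
    apply Finset.sum_congr rfl
    intro n _
    rw [D.dlRed_mul (D.const_mem (hn n)) (O.pow_mem hYO n), D.dlRed_const (hn n),
      D.dlRed_pow hYO n]

/-- the coefficient functionals on the residue side: `γ m (p(Ȳ)) = p_m`. -/
theorem exists_gamma : ∃ γ : ℕ → (Fk →ₗ[k] k), ∀ (m : ℕ) (p : Polynomial k),
    γ m (Polynomial.aeval (dlRed O ρ (t * (algebraMap K F π)⁻¹)) p) = p.coeff m := by
  have hy : dlRed O ρ (t * (algebraMap K F π)⁻¹) = ρ ⟨_, D.Y_mem⟩ := dlRed_of_mem O ρ D.Y_mem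
  have hker : LinearMap.ker
      (Polynomial.aeval (R := k) (dlRed O ρ (t * (algebraMap K F π)⁻¹))).toLinearMap = ⊥ := by
    rw [LinearMap.ker_eq_bot']
    intro p hp
    apply D.tr p
    rw [← hy]
    exact hp
  obtain ⟨g, hg⟩ := LinearMap.exists_leftInverse_of_injective _ hker
  refine ⟨fun m => (Polynomial.lcoeff k m).comp g, fun m p => ?_⟩
  have h1 : g ((Polynomial.aeval (R := k)
      (dlRed O ρ (t * (algebraMap K F π)⁻¹))).toLinearMap p) = p := by
    have := LinearMap.congr_fun hg p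
    simpa using this
  rw [LinearMap.comp_apply]
  have h2 : (Polynomial.aeval (R := k) (dlRed O ρ (t * (algebraMap K F π)⁻¹))) p =
      (Polynomial.aeval (R := k) (dlRed O ρ (t * (algebraMap K F π)⁻¹))).toLinearMap p := rfl
  rw [h2, h1]
  rfl

/-- the residue coefficients of an element of norm `≤ 1` of `K · R`. -/
theorem gamma_red (γ : ℕ → (Fk →ₗ[k] k))
    (hγ : ∀ (m : ℕ) (p : Polynomial k),
      γ m (Polynomial.aeval (dlRed O ρ (t * (algebraMap K F π)⁻¹)) p) = p.coeff m)
    {f : F} (hf : dlInV K R f) (hn : ∀ n, dlL R t ev n f * π ^ n ∈ A) (m : ℕ) :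
    γ m (dlRed O ρ f) = dlRes A res (dlL R t ev m f * π ^ m) := by
  obtain ⟨-, N, hN, hred⟩ := D.norm_red hf hn
  have hpoly : dlRed O ρ f = Polynomial.aeval (dlRed O ρ (t * (algebraMap K F π)⁻¹))
      (∑ n ∈ Finset.range N,
        Polynomial.C (dlRes A res (dlL R t ev n f * π ^ n)) * Polynomial.X ^ n) := by
    rw [hred, map_sum]
    apply Finset.sum_congr rfl
    intro n _
    rw [map_mul, Polynomial.aeval_C, map_pow, Polynomial.aeval_X]
  rw [hpoly, hγ, Polynomial.finsetSum_coeff]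
  by_cases hm : m < N
  · rw [Finset.sum_eq_single m]
    · rw [Polynomial.coeff_C_mul, Polynomial.coeff_X_pow, if_pos rfl, mul_one]
    · intro n _ hnm
      rw [Polynomial.coeff_C_mul, Polynomial.coeff_X_pow, if_neg (Ne.symm hnm), mul_zero]
    · intro h
      exact absurd (Finset.mem_range.mpr hm) h
  · rw [hN m (not_lt.mp hm)]
    apply Finset.sum_eq_zero
    intro n hn'
    have hne : m ≠ n := by
      intro h
      subst h
      exact hm (Finset.mem_range.mp hn')
    rw [Polynomial.coeff_C_mul, Polynomial.coeff_X_pow, if_neg hne, mul_zero]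

end Norm


section Main

variable (D : DiscLatData A O res ρ R t π ev)
include D

/-- normalisation at a pivot: a non-zero element of `K · R` has a multiple of norm `1` with a
coefficient equal to `1`. -/
theorem exists_normalised {f₀ : F} (hf₀ : dlInV K R f₀) (hne : f₀ ≠ 0) :
    ∃ (x : K) (n₁ : ℕ), x ≠ 0 ∧ (∀ n, dlL R t ev n (algebraMap K F x * f₀) * π ^ n ∈ A) ∧
      dlL R t ev n₁ (algebraMap K F x * f₀) * π ^ n₁ = 1 := by
  obtain ⟨c₀, hc₀, hg⟩ := hf₀
  have hg0 : algebraMap K F c₀ * f₀ ≠ 0 := mul_ne_zero (D.algebraMap_ne_zero hc₀) hne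
  obtain ⟨n₁, hn₁, hmax⟩ := D.exists_pivot hg hg0
  have hu : algebraMap K F ((dlCoef t ev n₁ (algebraMap K F c₀ * f₀) * π ^ n₁)⁻¹ * c₀) * f₀ =
      algebraMap K F (dlCoef t ev n₁ (algebraMap K F c₀ * f₀) * π ^ n₁)⁻¹ *
        (algebraMap K F c₀ * f₀) := by
    rw [map_mul, mul_assoc]
  have hL : ∀ n, dlL R t ev n
      (algebraMap K F ((dlCoef t ev n₁ (algebraMap K F c₀ * f₀) * π ^ n₁)⁻¹ * c₀) * f₀) =
      (dlCoef t ev n₁ (algebraMap K F c₀ * f₀) * π ^ n₁)⁻¹ *
        dlCoef t ev n (algebraMap K F c₀ * f₀) := by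
    intro n
    rw [hu, D.L_smul n _ (D.inV_of_mem hg), D.L_of_mem n hg]
  refine ⟨(dlCoef t ev n₁ (algebraMap K F c₀ * f₀) * π ^ n₁)⁻¹ * c₀, n₁,
    mul_ne_zero (inv_ne_zero hn₁) hc₀, ?_, ?_⟩
  · intro n
    rw [hL n, mul_assoc]
    exact D.inv_mul_mem_of_le hn₁ (hmax n)
  · rw [hL n₁, mul_assoc, inv_mul_cancel₀ hn₁]

/-- **pivot elimination** for subspaces of `K · R`. -/
theorem lattice_of_inV (γ : ℕ → (Fk →ₗ[k] k))
    (hγ : ∀ (m : ℕ) (p : Polynomial k),
      γ m (Polynomial.aeval (dlRed O ρ (t * (algebraMap K F π)⁻¹)) p) = p.coeff m)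
    (W : Submodule K F) [FiniteDimensional K W] (hWV : ∀ f ∈ W, dlInV K R f) :
    ∃ (m : ℕ) (w : Fin m → F), (∀ j, w j ∈ W) ∧ (∀ j n, dlL R t ev n (w j) * π ^ n ∈ A) ∧
      Submodule.span K (Set.range w) = W ∧
      LinearIndependent k (fun j => dlRed O ρ (w j)) := by
  classical
  induction hd : Module.finrank K W using Nat.strong_induction_on generalizing W with
  | _ d ih =>
    by_cases hW : W = ⊥
    · subst hW
      refine ⟨0, Fin.elim0, fun j => j.elim0, fun j => j.elim0, ?_, ?_⟩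
      · rw [Set.range_eq_empty, Submodule.span_empty]
      · exact linearIndependent_empty_type
    · obtain ⟨f₀, hf₀W, hf₀0⟩ := Submodule.exists_mem_ne_zero_of_ne_bot hW
      obtain ⟨x, n₁, hx, huA, hu1⟩ := D.exists_normalised (hWV f₀ hf₀W) hf₀0
      set u : F := algebraMap K F x * f₀ with hu
      have huW : u ∈ W := by
        rw [hu, ← Algebra.smul_def]
        exact W.smul_mem x hf₀W
      have huL : dlL R t ev n₁ u ≠ 0 := by
        intro h0
        rw [h0, zero_mul] at hu1
        exact zero_ne_one hu1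
      let W' : Submodule K F :=
        { carrier := {f | f ∈ W ∧ dlL R t ev n₁ f = 0}
          add_mem' := by
            rintro a b ⟨ha, ha0⟩ ⟨hb, hb0⟩
            exact ⟨W.add_mem ha hb, by
              rw [D.L_add n₁ (hWV a ha) (hWV b hb), ha0, hb0, add_zero]⟩
          zero_mem' := ⟨W.zero_mem, D.L_zero n₁⟩
          smul_mem' := by
            rintro y a ⟨ha, ha0⟩
            refine ⟨W.smul_mem y ha, ?_⟩
            rw [Algebra.smul_def, D.L_smul n₁ y (hWV a ha), ha0, mul_zero] }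
      have hW'le : W' ≤ W := fun f hf => hf.1
      have huW' : u ∉ W' := fun h => huL h.2
      have hlt : W' < W := lt_of_le_of_ne hW'le (fun h => huW' (h ▸ huW))
      have : FiniteDimensional K W' := Submodule.finiteDimensional_of_le hW'le
      have hrk : Module.finrank K W' < d := hd ▸ Submodule.finrank_lt_finrank_of_lt hlt
      obtain ⟨m, v, hvW, hvA, hvspan, hvind⟩ :=
        ih _ hrk W' (fun f hf => hWV f (hW'le hf)) rfl
      have hvn₁ : ∀ j, dlL R t ev n₁ (v j) = 0 := fun j => (hvW j).2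
      refine ⟨m + 1, Fin.cons u v, ?_, ?_, ?_, ?_⟩
      · intro j
        refine Fin.cases ?_ (fun j => ?_) j
        · simpa using huW
        · simpa using hW'le (hvW j)
      · intro j n
        refine Fin.cases ?_ (fun j => ?_) j
        · simpa using huA n
        · simpa using hvA j n
      · rw [Fin.range_cons, Submodule.span_insert, hvspan]
        apply le_antisymm
        · refine sup_le ?_ hW'le
          rw [Submodule.span_singleton_le_iff_mem]
          exact huW
        · intro y hy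
          set a : K := dlL R t ev n₁ y * (dlL R t ev n₁ u)⁻¹ with ha
          have hau : algebraMap K F (-a) * u ∈ W := by
            rw [← Algebra.smul_def]
            exact W.smul_mem _ huW
          have hy' : y + algebraMap K F (-a) * u ∈ W' := by
            refine ⟨W.add_mem hy hau, ?_⟩
            rw [D.L_add n₁ (hWV y hy) (hWV _ hau), D.L_smul n₁ (-a) (hWV u huW), ha]
            field_simp
            ring
          have hsplit : y = a • u + (y + algebraMap K F (-a) * u) := by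
            rw [Algebra.smul_def, map_neg]
            ring
          rw [hsplit]
          exact Submodule.add_mem_sup
            (Submodule.smul_mem _ _ (Submodule.mem_span_singleton_self u)) hy'
      · have hfun : (fun j => dlRed O ρ ((Fin.cons u v : Fin (m + 1) → F) j)) =
            Fin.cons (dlRed O ρ u) (fun j => dlRed O ρ (v j)) := by
          funext j
          refine Fin.cases ?_ (fun j => ?_) j
          · simp
          · simp
        rw [hfun, linearIndependent_finCons]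
        refine ⟨hvind, ?_⟩
        intro hmem
        have hle : Submodule.span k (Set.range fun j => dlRed O ρ (v j)) ≤
            LinearMap.ker (γ n₁) := by
          rw [Submodule.span_le]
          rintro _ ⟨j, rfl⟩
          have h1 := D.gamma_red γ hγ (hWV _ (hW'le (hvW j))) (hvA j) n₁
          rw [hvn₁ j, zero_mul, D.dlRes_zero] at h1
          exact h1
        have h1 : γ n₁ (dlRed O ρ u) = 0 := hle hmem
        have h2 := D.gamma_red γ hγ (hWV u huW) huA n₁
        rw [hu1, D.dlRes_one, h1] at h2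
        exact zero_ne_one h2

/-- **LATTICE property of the disc valuation**: every finite dimensional `K`-subspace of `F` has
a basis of elements of `O` with `k`-linearly independent residues. -/
theorem lattice (W : Submodule K F) [FiniteDimensional K W] :
    ∃ (n : ℕ) (w : Fin n → F), (∀ i, w i ∈ W) ∧ (∀ i, w i ∈ O) ∧
      Submodule.span K (Set.range w) = W ∧
      LinearIndependent k (fun i => dlRed O ρ (w i)) := by
  classical
  obtain ⟨γ, hγ⟩ := D.exists_gamma
  obtain ⟨s, hs⟩ : W.FG := (Submodule.fg_iff_finiteDimensional W).mpr inferInstance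
  choose den hdenR hden0 hdenmul using D.frac
  have hGR : (∏ b ∈ s, den b) ∈ R := R.prod_mem (fun b _ => hdenR b)
  have hG0 : (∏ b ∈ s, den b) ≠ 0 := Finset.prod_ne_zero_iff.mpr (fun b _ => hden0 b)
  have hbG : ∀ b ∈ s, b * (∏ b ∈ s, den b) ∈ R := by
    intro b hb
    rw [← Finset.mul_prod_erase s den hb, ← mul_assoc]
    exact R.mul_mem (hdenmul b) (R.prod_mem (fun b' _ => hdenR b'))
  obtain ⟨x, n₁, hx, hGA, hG1⟩ := D.exists_normalised (D.inV_of_mem hGR) hG0
  set G' : F := algebraMap K F x * (∏ b ∈ s, den b) with hG'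
  have hG'V : dlInV K R G' := D.inV_smul x (D.inV_of_mem hGR)
  have hG'O : G' ∈ O := (D.norm_red hG'V hGA).1
  have hG'red : dlRed O ρ G' ≠ 0 := by
    intro h0
    have := D.gamma_red γ hγ hG'V hGA n₁
    rw [h0, map_zero, hG1, D.dlRes_one] at this
    exact zero_ne_one this
  have hG'0 : G' ≠ 0 := mul_ne_zero (D.algebraMap_ne_zero hx) hG0
  have hunit : IsUnit (⟨G', hG'O⟩ : O) := by
    by_contra hnu
    exact hG'red (by rw [dlRed_of_mem O ρ hG'O]; exact (D.ρ_eq_zero_iff _).mpr hnu)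
  have hG'inv : G'⁻¹ ∈ O := by
    obtain ⟨u, hu⟩ := hunit
    have h1 : G' * (((u⁻¹ : Oˣ) : O) : F) = 1 := by
      have h2 := congrArg (fun y : O => (y : F)) u.mul_inv
      simp only [hu] at h2
      simpa using h2
    have h3 : (((u⁻¹ : Oˣ) : O) : F) = G'⁻¹ := eq_inv_of_mul_eq_one_right h1
    rw [← h3]
    exact ((u⁻¹ : Oˣ) : O).2
  have key : ∀ f' ∈ W, dlInV K R (f' * G') := by
    intro f' hf'
    rw [← hs] at hf'
    induction hf' using Submodule.span_induction with
    | mem b hb =>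
      have : b * G' = algebraMap K F x * (b * ∏ b ∈ s, den b) := by
        rw [hG']
        ring
      rw [this]
      exact D.inV_smul x (D.inV_of_mem (hbG b hb))
    | zero =>
      rw [zero_mul]
      exact D.inV_zero
    | add a b _ _ ha hb =>
      rw [add_mul]
      exact D.inV_add ha hb
    | smul c a _ ha =>
      rw [Algebra.smul_def, mul_assoc]
      exact D.inV_smul c ha
  have hW2V : ∀ f ∈ W.map (LinearMap.mulRight K G'), dlInV K R f := by
    rintro f ⟨f', hf', rfl⟩
    exact key f' hf'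
  obtain ⟨m, w2, hw2W, hw2A, hw2span, hw2ind⟩ :=
    D.lattice_of_inV γ hγ (W.map (LinearMap.mulRight K G')) hW2V
  have hw2O : ∀ j, w2 j ∈ O := fun j => (D.norm_red (hW2V _ (hw2W j)) (hw2A j)).1
  have hredinv : dlRed O ρ G'⁻¹ ≠ 0 := by
    intro h0
    have h1 := D.dlRed_mul hG'O hG'inv
    rw [mul_inv_cancel₀ hG'0, D.dlRed_one, h0, mul_zero] at h1
    exact one_ne_zero h1
  refine ⟨m, fun j => w2 j * G'⁻¹, ?_, ?_, ?_, ?_⟩
  · intro j
    obtain ⟨f', hf', hfe⟩ := hw2W j
    have hfe' : f' * G' = w2 j := hfe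
    have : w2 j * G'⁻¹ = f' := by
      rw [← hfe', mul_assoc, mul_inv_cancel₀ hG'0, mul_one]
    show w2 j * G'⁻¹ ∈ W
    rw [this]
    exact hf'
  · intro j
    show w2 j * G'⁻¹ ∈ O
    exact O.mul_mem _ _ (hw2O j) hG'inv
  · have hrange : Set.range (fun j => w2 j * G'⁻¹) =
        (LinearMap.mulRight K G'⁻¹) '' Set.range w2 := by
      rw [← Set.range_comp]
      rfl
    have hcomp : (LinearMap.mulRight K G'⁻¹).comp (LinearMap.mulRight K G') = LinearMap.id := by
      ext f
      simp [mul_assoc, mul_inv_cancel₀ hG'0]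
    rw [hrange, ← Submodule.map_span, hw2span, ← Submodule.map_comp, hcomp, Submodule.map_id]
  · have hfun : (fun j => dlRed O ρ (w2 j * G'⁻¹)) =
        (LinearMap.mulRight k (dlRed O ρ G'⁻¹)) ∘ (fun j => dlRed O ρ (w2 j)) := by
      funext j
      simp only [Function.comp_apply, LinearMap.mulRight_apply]
      exact D.dlRed_mul (hw2O j) hG'inv
    rw [hfun]
    apply hw2ind.map'
    rw [LinearMap.ker_eq_bot]
    intro a b hab
    simp only [LinearMap.mulRight_apply] at hab
    exact mul_right_cancel₀ hredinv hab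

end Main

end DiscLatData

end Fermat.Agent.HPVal
end
end MergeWrap_Lib_BadRed_HPVal_DiscLatMain

section MergeWrap_Lib_BadRed_HPVal_DiscLatWrap -- from Lib/BadRed/HPVal/DiscLatWrap.lean

set_option autoImplicit false
set_option linter.unusedSectionVars false

noncomputable section

namespace Fermat.Agent.HPVal

open Fermat.Agent.Deuring

variable {K F k Fk : Type*} [Field K] [Field F] [Algebra K F] [Field k] [Field Fk] [Algebra k Fk]

/-- `Deuring.ValSetup.red` is `dlRed`. -/
theorem valSetup_red_eq_dlRed (S : ValSetup K F k Fk) (f : F) : S.red f = dlRed S.Ov S.ρ f := by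
  unfold ValSetup.red dlRed
  rfl

/-- **DISC-LAT**: a constant reduction whose valuation ring is a disc valuation has the lattice
property. -/
theorem hasLattice_of_discLat (S : ValSetup K F k Fk) {R : Subring F} {t : F} {π : K}
    {ev : F → K} (D : DiscLatData S.A S.Ov S.res S.ρ R t π ev) : HasLattice S := by
  intro W hW
  have : FiniteDimensional K W := hW
  obtain ⟨n, w, hwW, hwO, hspan, hind⟩ := D.lattice W
  refine ⟨n, w, hwW, hwO, hspan, ?_⟩
  have hfun : (fun i => S.red (w i)) = fun i => dlRed S.Ov S.ρ (w i) := by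
    funext i
    exact valSetup_red_eq_dlRed S (w i)
  rw [hfun]
  exact hind

/-- the fields of `DiscLatData` which come from the constant reduction itself. -/
theorem discLatData_of_valSetup (S : ValSetup K F k Fk) {R : Subring F} {t : F} {π : K}
    {ev : F → K}
    (R_le : ∀ g ∈ R, g ∈ S.Ov) (A_le : ∀ a ∈ S.A, algebraMap K F a ∈ R)
    (t_mem : t ∈ R) (t_ne : t ≠ 0) (π_ne : π ≠ 0) (π_mem : π ∈ S.A)
    (Y_mem : t * (algebraMap K F π)⁻¹ ∈ S.Ov)
    (ev_mem : ∀ g ∈ R, ev g ∈ S.A)
    (ev_add : ∀ g ∈ R, ∀ h ∈ R, ev (g + h) = ev g + ev h)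
    (ev_smul : ∀ a ∈ S.A, ∀ g ∈ R, ev (algebraMap K F a * g) = a * ev g)
    (div : ∀ g ∈ R, (g - algebraMap K F (ev g)) * t⁻¹ ∈ R)
    (sep : ∀ g ∈ R, (∀ N : ℕ, g * (t ^ N)⁻¹ ∈ R) → g = 0)
    (tr : ∀ p : Polynomial k,
      Polynomial.aeval (S.ρ ⟨t * (algebraMap K F π)⁻¹, Y_mem⟩) p = 0 → p = 0)
    (arch : ∀ c : K, c ≠ 0 → ∃ N : ℕ, S.A.valuation (π ^ N) < S.A.valuation c)
    (frac : ∀ f : F, ∃ g ∈ R, g ≠ 0 ∧ f * g ∈ R) :
    DiscLatData S.A S.Ov S.res S.ρ R t π ev where
  mem_O_iff := S.mem_Ov_iff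
  ρ_algebraMap := S.ρ_algebraMap
  ρ_eq_zero_iff := S.ρ_eq_zero_iff
  R_le := R_le
  A_le := A_le
  t_mem := t_mem
  t_ne := t_ne
  π_ne := π_ne
  π_mem := π_mem
  Y_mem := Y_mem
  ev_mem := ev_mem
  ev_add := ev_add
  ev_smul := ev_smul
  div := div
  sep := sep
  tr := tr
  arch := arch
  frac := frac

end Fermat.Agent.HPVal
end
end MergeWrap_Lib_BadRed_HPVal_DiscLatWrap
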